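import Fermat.Agent.S34.Skeleton
import Fermat.Agent.S30.CycCharAdic
import Fermat.Agent.S31.TraceInvariance

/-!
# W3-LGC, S34, module T3: the determinant on inertia

`detInertia : DetInertiaStatement`: for the representation `ρ_T` of a Hecke–Galois datum and
`σ` in an inertia group at a prime `q ≠ p`: `det ρ_T(σ) = 1`.

Proof: the determinant is the `p`-adic cyclotomic character.  Fix `n`; by weak Chebotarev
`σ = f ^ k * s'` with `f` a Frobenius at a prime `ℓ ∉ S`, `ℓ ∤ N`, and `s'` trivial on a finite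
level on which both the cyclotomic character and `ρ_T` are trivial modulo the `n`-th power of
the maximal ideal.  Then `1 = d σ ≡ ℓ ^ k` modulo `p ^ n`, `det ρ_T (f) = ℓ` and
`det ρ_T (s') ≡ 1`, so `det ρ_T (σ) ≡ 1` modulo `m_T ^ n`; conclude by Krull's intersection
theorem.
-/

set_option autoImplicit false

open Polynomial

namespace Fermat.Agent.S34

open Fermat.Agent.S29 (GQ WeakChebotarev)
open Fermat.Agent.S30 (ac_form_mem)
open Fermat.Agent.S31 (TI_Small)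

section Det

variable {R : Type*} [CommRing R] {W : Type*} [AddCommGroup W] [Module R W]
  [Module.Free R W] [Module.Finite R W]

/-- the determinant of an endomorphism which is congruent to `1` modulo `I` is congruent to
`1` modulo `I`. -/
theorem DI_det_sub_one_mem {I : Ideal R} {φ : Module.End R W} (h : TI_Small I (φ - 1)) :
    LinearMap.det φ - 1 ∈ I := by
  classical
  let b := Module.Free.chooseBasis R W
  rw [← LinearMap.det_toMatrix b φ]
  have hent : ∀ i j, LinearMap.toMatrix b b φ i j - (1 : Matrix _ _ R) i j ∈ I := by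
    intro i j
    have h1 : LinearMap.toMatrix b b φ i j - (1 : Matrix _ _ R) i j =
        b.coord i ((φ - 1) (b j)) := by
      rw [LinearMap.toMatrix_apply, LinearMap.sub_apply, Module.End.one_apply, map_sub,
        Module.Basis.coord_apply, Module.Basis.coord_apply, Module.Basis.repr_self,
        Matrix.one_apply, Finsupp.single_apply]
      congr 1
      split_ifs with h1 h2 h2
      · rfl
      · exact absurd h1.symm h2
      · exact absurd h2.symm h1
      · rfl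
    rw [h1]
    exact ac_form_mem I (b.coord i) (h (b j))
  have hmap : (Ideal.Quotient.mk I).mapMatrix (LinearMap.toMatrix b b φ) = 1 := by
    ext i j
    rw [RingHom.mapMatrix_apply, Matrix.map_apply]
    have := (Ideal.Quotient.eq (I := I)).mpr (hent i j)
    rw [this]
    simp [Matrix.one_apply]
  have hdet : Ideal.Quotient.mk I (LinearMap.toMatrix b b φ).det = 1 := by
    rw [RingHom.map_det, hmap, Matrix.det_one]
  rw [← Ideal.Quotient.eq, hdet, map_one]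

/-- the determinant from the characteristic polynomial in rank two. -/
theorem DI_det_of_charpoly [Nontrivial R] (hV : Module.finrank R W = 2) (φ : Module.End R W)
    (b d : R) (hcp : LinearMap.charpoly φ = X ^ 2 - C b * X + C d) : LinearMap.det φ = d := by
  rw [LinearMap.det_eq_sign_charpoly_coeff, hV, hcp]
  simp

end Det

/-- an integer which is `≡ 1` modulo `p ^ n` in `ℤ_[p]` is `≡ 1` modulo `m_T ^ n` in a local
ring `T` in which `p` is not a unit. -/
theorem DI_transfer {p : ℕ} [Fact p.Prime] {T : Type*} [CommRing T] [IsLocalRing T]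
    (hpT : (p : T) ∈ IsLocalRing.maximalIdeal T) (a : ℤ) (n : ℕ)
    (h : ((a : ℤ_[p]) - 1) ∈ IsLocalRing.maximalIdeal ℤ_[p] ^ n) :
    ((a : T) - 1) ∈ IsLocalRing.maximalIdeal T ^ n := by
  rw [PadicInt.maximalIdeal_eq_span_p, Ideal.span_singleton_pow, Ideal.mem_span_singleton] at h
  have h1 : ((p : ℤ_[p]) ^ n) ∣ ((a - 1 : ℤ) : ℤ_[p]) := by
    push_cast
    exact h
  obtain ⟨c, hc⟩ := (PadicInt.pow_p_dvd_int_iff n (a - 1)).mp h1
  have h2 : ((a : T) - 1) = (p : T) ^ n * (c : T) := by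
    have := congrArg (Int.cast : ℤ → T) hc
    push_cast at this
    exact this
  rw [h2]
  exact Ideal.mul_mem_right _ _ (Ideal.pow_mem_pow hpT n)

/-- **T3 (DetInertia).** -/
theorem detInertia : DetInertiaStatement := by
  intro hCheb p hp N _ S hpS 𝒪 _ _ _ _ hp𝒪 θ T _ _ _ _ _ _ _ _ H q hq hqp A hA σ hσ
  have : Fact p.Prime := ⟨hp⟩
  have hmaxZ : IsLocalRing.maximalIdeal ℤ_[p] = Ideal.span {(p : ℤ_[p])} :=
    PadicInt.maximalIdeal_eq_span_p
  have hpZ : (p : ℤ_[p]) ∈ IsLocalRing.maximalIdeal ℤ_[p] := by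
    rw [hmaxZ]
    exact Ideal.mem_span_singleton_self _
  obtain ⟨d, hdcont, hdin, hdfrob, -⟩ := Fermat.Agent.S30.cycCharAdic p hp ℤ_[p] hpZ
  -- `p` is not a unit of `T`
  have hpT : (p : T) ∈ IsLocalRing.maximalIdeal T := by
    have h1 : (p : T) = algebraMap 𝒪 T (p : 𝒪) := (map_natCast (algebraMap 𝒪 T) p).symm
    rw [h1, IsLocalRing.mem_maximalIdeal, mem_nonunits_iff]
    intro hu
    exact (IsLocalRing.mem_maximalIdeal _).mp hp𝒪 (isUnit_of_map_unit (algebraMap 𝒪 T) _ hu)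
  have hdσ : d σ = 1 := hdin q hq hqp A hA σ hσ
  -- the congruences
  have key : ∀ n : ℕ, LinearMap.det (H.ρ.ρ σ) - 1 ∈ IsLocalRing.maximalIdeal T ^ n := by
    intro n
    obtain ⟨L₂, hL₂, h₂⟩ := hdcont n
    obtain ⟨L₃, hL₃, h₃⟩ := H.ρ.isAdicContinuous n
    have hfd : FiniteDimensional ℚ ↥(L₂ ⊔ L₃) := IntermediateField.finiteDimensional_sup L₂ L₃
    obtain ⟨ℓ, hℓ, hℓS, A', hA', f, hf, k, hk⟩ := hCheb (L₂ ⊔ L₃) hfd σ (S ∪ N.primeFactors)
    have hℓS₁ : ℓ ∉ S := fun h => hℓS (Finset.mem_union_left _ h)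
    have hℓS' : ℓ ∉ (↑S : Set ℕ) := fun h => hℓS₁ (Finset.mem_coe.mp h)
    have hℓN : ¬ ℓ ∣ N := fun h =>
      hℓS (Finset.mem_union_right _ (Nat.mem_primeFactors.mpr ⟨hℓ, h, NeZero.ne N⟩))
    have hℓp : ℓ ≠ p := fun h => hℓS₁ (h ▸ hpS)
    -- `s' = (f ^ k)⁻¹ * σ` fixes the compositum
    have hs' : ∀ x ∈ L₂ ⊔ L₃, ((f ^ k)⁻¹ * σ) x = x := fun x hx => by
      rw [AlgEquiv.mul_apply, hk x hx]
      exact (f ^ k).symm_apply_apply x
    have hσeq : σ = f ^ k * ((f ^ k)⁻¹ * σ) := by rw [mul_inv_cancel_left]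
    have hle₂ : L₂ ≤ L₂ ⊔ L₃ := le_sup_left
    have hle₃ : L₃ ≤ L₂ ⊔ L₃ := le_sup_right
    have hs₂ := h₂ ((f ^ k)⁻¹ * σ) fun x hx => hs' x (hle₂ hx)
    have hs₃ : TI_Small (IsLocalRing.maximalIdeal T ^ n) (H.ρ.ρ ((f ^ k)⁻¹ * σ) - 1) :=
      fun v => by
        rw [LinearMap.sub_apply, Module.End.one_apply]
        exact h₃ _ (fun x hx => hs' x (hle₃ hx)) v
    -- (i) `ℓ ^ k ≡ 1` modulo `p ^ n`
    have hdf := hdfrob ℓ hℓ hℓp A' hA' f hf
    have hd1 : (1 : ℤ_[p]) = (ℓ : ℤ_[p]) ^ k * ((d ((f ^ k)⁻¹ * σ) : ℤ_[p]ˣ) : ℤ_[p]) := by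
      have h1 : ((d σ : ℤ_[p]ˣ) : ℤ_[p]) = 1 := by rw [hdσ]; rfl
      rw [← h1]
      conv_lhs => rw [hσeq]
      rw [map_mul, map_pow, Units.val_mul, Units.val_pow_eq_pow_val, hdf]
    have hℓk : (((ℓ : ℤ) ^ k : ℤ) : ℤ_[p]) - 1 ∈ IsLocalRing.maximalIdeal ℤ_[p] ^ n := by
      have e : (((ℓ : ℤ) ^ k : ℤ) : ℤ_[p]) - 1 =
          -((ℓ : ℤ_[p]) ^ k * (((d ((f ^ k)⁻¹ * σ) : ℤ_[p]ˣ) : ℤ_[p]) - 1)) := by
        push_cast
        linear_combination (-1 : ℤ_[p]) * hd1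
      rw [e]
      exact neg_mem (Ideal.mul_mem_left _ _ hs₂)
    have hℓkT : (((ℓ : ℤ) ^ k : ℤ) : T) - 1 ∈ IsLocalRing.maximalIdeal T ^ n :=
      DI_transfer hpT _ n hℓk
    -- (ii) `det ρ_T (f) = ℓ`
    have hdetf : LinearMap.det (H.ρ.ρ f) = (ℓ : T) :=
      DI_det_of_charpoly H.ρ.finrank_eq _ _ _ (H.charpoly_frob ℓ hℓ hℓN hℓS' A' hA' f hf)
    -- (iii) `det ρ_T (s') ≡ 1`
    have hdets := DI_det_sub_one_mem hs₃
    -- conclusion
    have e : LinearMap.det (H.ρ.ρ σ) - 1 =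
        (ℓ : T) ^ k * (LinearMap.det (H.ρ.ρ ((f ^ k)⁻¹ * σ)) - 1) +
          ((((ℓ : ℤ) ^ k : ℤ) : T) - 1) := by
      conv_lhs => rw [hσeq]
      rw [map_mul, map_mul, map_pow, map_pow, hdetf]
      push_cast
      ring
    rw [e]
    exact Ideal.add_mem _ (Ideal.mul_mem_left _ _ hdets) hℓkT
  -- Krull's intersection theorem
  have hbot : (⨅ i : ℕ, IsLocalRing.maximalIdeal T ^ i) = ⊥ :=
    Ideal.iInf_pow_eq_bot_of_isLocalRing _ (IsLocalRing.maximalIdeal.isMaximal T).ne_top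
  have hmem : LinearMap.det (H.ρ.ρ σ) - 1 ∈ (⨅ i : ℕ, IsLocalRing.maximalIdeal T ^ i) :=
    (Ideal.mem_iInf).mpr key
  rw [hbot, Ideal.mem_bot] at hmem
  exact sub_eq_zero.mp hmem

end Fermat.Agent.S34
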