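import Fermat.Agent.S34.Skeleton
import Fermat.Agent.S31.TatePackage

/-!
# W3-LGC / S34, task T1: the full Tate package (helper27)

`tatePackageFull N p : TatePackageFullStatement N p`: the Tate package of S31 (same module `M`,
same `ρ`, `Θ`) together with the projections `π k : M →+ J₀(N)` to the torsion points
(`π k := (inclusion of the p-power torsion) ∘ π_Tate k`): `π k` has values in `J₀(N)[p ^ k]`,
kernel `p ^ k M`, and is equivariant for Galois and for the Hecke operators.
-/

set_option autoImplicit false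
set_option linter.unusedSectionVars false
set_option linter.style.haveILetI false

namespace Fermat.Agent.S34

open Fermat.Agent.S29 (GQ HeckeGaloisCommute EichlerShimuraTorsion TorsionFiniteLevel)
open Fermat.Agent.S30 (TateStatement)
open Fermat.Agent.S31 (tpjPrim tpjRes tpjRes_apply tpj_finite tpjGal tpjGal_apply tpjHecke
  tpjHecke_apply tpjHecke_X tpj_commute)
open ModularCurve

/-- **T1 (TatePackageFull).** -/
theorem tatePackageFull (N p : ℕ) [NeZero N] [Fact p.Prime] : TatePackageFullStatement N p := by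
  intro hT hHG hES hTF
  obtain ⟨M, iM1, iM2, iM3, iM4, π, Φ, h1, h2, h3, h4, h5⟩ :=
    hT p (tpjPrim p (JZero N)) (fun k => tpj_finite k (hTF k).1)
  let R : AddMonoid.End (JZero N) →+* AddMonoid.End (tpjPrim p (JZero N)) := tpjRes p (JZero N)
  let ρ : GQ →* Module.End ℤ_[p] M :=
    (Φ : AddMonoid.End (tpjPrim p (JZero N)) →* Module.End ℤ_[p] M).comp
      ((R : AddMonoid.End (JZero N) →* AddMonoid.End (tpjPrim p (JZero N))).comp (tpjGal N))
  let Θ : MvPolynomial Nat.Primes ℤ →+* Module.End ℤ_[p] M :=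
    Φ.comp (R.comp (tpjHecke N hHG.1))
  let π' : ℕ → M →+ JZero N := fun k => (tpjPrim p (JZero N)).subtype.comp (π k)
  have hρ : ∀ g : GQ, ρ g = Φ (R (tpjGal N g)) := fun g => rfl
  have hΘ : ∀ P : MvPolynomial Nat.Primes ℤ, Θ P = Φ (R (tpjHecke N hHG.1 P)) := fun P => rfl
  have hπ' : ∀ (k : ℕ) (t : M), π' k t = ((π k t : tpjPrim p (JZero N)) : JZero N) :=
    fun k t => rfl
  have hpmem : (p : ℤ_[p]) ∈ IsLocalRing.maximalIdeal ℤ_[p] := by
    rw [PadicInt.maximalIdeal_eq_span_p]; exact Ideal.mem_span_singleton_self _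
  have hπpow : ∀ (k : ℕ) (w : M), π k (((p : ℤ_[p]) ^ k) • w) = 0 := by
    intro k w
    rw [← Nat.cast_pow, Nat.cast_smul_eq_nsmul, map_nsmul, h1]
  refine ⟨M, iM1, iM2, iM3, iM4, ρ, Θ, π', ?_, ?_, ?_, ?_, ?_, ?_, ?_, ?_, ?_⟩
  · -- commutation
    intro P g
    rw [hρ, hΘ]
    exact ((tpj_commute N hHG P g).map R).map Φ
  · -- continuity
    intro n
    obtain ⟨L, hL, hfix⟩ := (hTF n).2
    refine ⟨L, hL, fun σ hσ v => ?_⟩
    have hker : π n (ρ σ v - v) = 0 := by
      rw [map_sub, hρ, h5, sub_eq_zero]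
      apply Subtype.ext
      show σ • ((π n v : tpjPrim p (JZero N)) : JZero N) = ((π n v : tpjPrim p (JZero N)) : JZero N)
      apply hfix σ hσ
      have := congrArg (fun y : tpjPrim p (JZero N) => (y : JZero N)) (h1 n v)
      simpa using this
    obtain ⟨s, hs⟩ := h3 n _ hker
    rw [hs]
    exact Submodule.smul_mem_smul (Ideal.pow_mem_pow hpmem n) Submodule.mem_top
  · -- unramified
    intro q hq hqN A hA σ hσ
    rw [hρ]
    have : R (tpjGal N σ) = 1 := by
      ext x
      show σ • (x : JZero N) = (x : JZero N)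
      exact hES.1 q hq hqN A hA σ hσ x.1 x.2
    rw [this, map_one]
  · -- Eichler-Shimura relation
    intro ℓ hℓ hℓN A hA σ hσ
    have hrel : R (tpjGal N σ) * R (tpjGal N σ)
        - R (tpjHecke N hHG.1 (MvPolynomial.X ⟨ℓ, hℓ⟩)) * R (tpjGal N σ)
        + ((ℓ : ℕ) : AddMonoid.End (tpjPrim p (JZero N))) = 0 := by
      ext x
      show σ • σ • (x : JZero N) - tpjHecke N hHG.1 (MvPolynomial.X ⟨ℓ, hℓ⟩) (σ • (x : JZero N))
        + (((ℓ : ℕ) : AddMonoid.End (tpjPrim p (JZero N))) x : tpjPrim p (JZero N)) = 0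
      rw [tpjHecke_X]
      have h := hES.2 ℓ hℓ hℓN A hA σ hσ x.1 x.2
      have hc : ((((ℓ : ℕ) : AddMonoid.End (tpjPrim p (JZero N))) x : tpjPrim p (JZero N)) :
          JZero N) = ℓ • (x : JZero N) := by
        simp
      rw [hc]
      exact h
    have := congrArg Φ hrel
    rw [map_add, map_sub, map_mul, map_mul, map_natCast, map_zero] at this
    rw [hρ, hΘ, ← Algebra.algebraMap_eq_smul_one, map_natCast]
    exact this
  · -- key link
    intro P k hPk
    obtain ⟨m, hm⟩ := h4 k
    refine ⟨m, ?_⟩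
    intro x hx
    rw [heckeModuleBar_smul_def hHG.1, map_mul, heckeEvalBar_C]
    show ((((p : ℤ) ^ m : ℤ) : Module.End ℤ (JZero N))) (heckeEvalBar hHG.1 P x) = 0
    rw [Module.End.intCast_apply, ← Nat.cast_pow, natCast_zsmul]
    let x' : tpjPrim p (JZero N) := ⟨x, k + m, hx⟩
    have hx' : p ^ (k + m) • x' = 0 := Subtype.ext hx
    obtain ⟨t, ht⟩ := hm x' hx'
    obtain ⟨w, hw⟩ := hPk t
    have e1 : π k (Θ P t) = 0 := by rw [hw, hπpow]
    rw [hΘ, h5, ht] at e1
    have e2 := congrArg (fun y : tpjPrim p (JZero N) => (y : JZero N)) e1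
    simp only [tpjRes_apply, tpjHecke_apply, R] at e2
    rw [← map_nsmul]
    simpa using e2
  · -- values in the `p ^ k`-torsion
    intro k t
    rw [hπ']
    have := congrArg (fun y : tpjPrim p (JZero N) => (y : JZero N)) (h1 k t)
    simpa using this
  · -- kernel
    intro k t ht
    rw [hπ'] at ht
    exact h3 k t (Subtype.ext ht)
  · -- Galois equivariance
    intro g k t
    rw [hπ', hπ', hρ, h5]
    rfl
  · -- Hecke equivariance
    intro P k t
    rw [hπ', hπ', hΘ, h5, heckeModuleBar_smul_def hHG.1]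
    rfl

end Fermat.Agent.S34
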