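import Fermat.Agent.S34.Skeleton
import Fermat.Agent.S31.TraceInvariance

/-!
# W3-LGC, S34, module T2: the trace of inertia at `q ∥ N` is `2`

`traceTwo_of` : for the representation `ρ_T` of a Hecke–Galois datum and `σ` in an inertia group
at a prime `q ≠ p` exactly dividing `N`, `tr ρ_T(σ) = 2`, from the monodromy input
`InertiaUnipotentTorsion` and the full Tate package.

This is the proof of `Fermat.Agent.S31.traceInvariance_of` with `g = 1` and one changed step: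
on the Tate module `M` one has `(ρ σ) ^ 2 + 1 = 2 ρ σ` (from `(σ - 1) ^ 2 = 0` on the torsion
points, the projections `π k` and the Krull intersection theorem), hence
`ρ σ + d(σ) ρ σ⁻¹ = 2 = ρ 1 + d(1) ρ 1⁻¹`.
-/

set_option autoImplicit false

open Polynomial

namespace Fermat.Agent.S34

open Fermat.Agent.S29 (GQ WeakChebotarev HeckeGaloisCommute EichlerShimuraTorsion
  TorsionFiniteLevel)
open Fermat.Agent.S30 (heckeTAll TateStatement acTrace ac_map_mem ac_form_mem ac_smul_mem)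
open Fermat.Agent.S31 (HeckeKeyLattice TI_Small TI_Sc TI_evS TI_evS_X TI_key TI_approx_M
  TI_approx_T TI_isUnit_natCast TI_acTrace_mem TI_map_acTrace TI_mem_span_smul_iff)

/-- An element of a finite module over `ℤ_[p]` which is divisible by every power of `p` is
zero. -/
theorem TT2_eq_zero_of_forall_dvd {p : ℕ} [Fact p.Prime] {M : Type*} [AddCommGroup M]
    [Module ℤ_[p] M] [Module.Finite ℤ_[p] M] (u : M)
    (h : ∀ k : ℕ, ∃ s : M, u = ((p : ℤ_[p]) ^ k) • s) : u = 0 := by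
  have hbot : (⨅ i : ℕ, (IsLocalRing.maximalIdeal ℤ_[p]) ^ i • (⊤ : Submodule ℤ_[p] M)) = ⊥ :=
    Ideal.iInf_pow_smul_eq_bot_of_isLocalRing _ (IsLocalRing.maximalIdeal.isMaximal ℤ_[p]).ne_top
  have hmem : u ∈ (⨅ i : ℕ, (IsLocalRing.maximalIdeal ℤ_[p]) ^ i • (⊤ : Submodule ℤ_[p] M)) := by
    rw [Submodule.mem_iInf]
    intro k
    obtain ⟨s, hs⟩ := h k
    rw [hs]
    refine Submodule.smul_mem_smul ?_ Submodule.mem_top
    refine Ideal.pow_mem_pow ?_ k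
    rw [PadicInt.maximalIdeal_eq_span_p]
    exact Ideal.mem_span_singleton_self _
  rw [hbot] at hmem
  exact (Submodule.mem_bot _).mp hmem

/-- In a ring, `a * a + 1 = 2 a` and `a' * a = 1` give `a + a' = 2`. -/
theorem TT2_add_inv_eq_two {E : Type*} [Ring E] {a a' : E} (h : a * a + 1 = 2 • a)
    (h' : a' * a = 1) : a + a' = 2 • (1 : E) := by
  have h1 : a' * (a * a + 1) = a' * (2 • a) := by rw [h]
  rw [mul_add, ← mul_assoc, h', one_mul, mul_one, mul_smul_comm, h'] at h1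
  exact h1

/-- **T2 (TraceTwo).** -/
theorem traceTwo_of (hT : TateStatement)
    (hTP : ∀ (N p : ℕ) [NeZero N] [Fact p.Prime], TatePackageFullStatement N p)
    (N p : ℕ) [NeZero N] : TraceTwoStatement N p := by
  intro hp hCheb hHGC hES hTFL hKL hMono S hpS hS 𝒪 _ _ _ _ hp𝒪 θ T _ _ _ _ _ _ _ _ H q hq hqp
    hqN hq2 A hA σ₀ hσ₀
  have : Fact p.Prime := ⟨hp⟩
  obtain ⟨M, iM1, iM2, iM3, iM4, ρ, Θ, π, hcomm, hcont, hunr, hESrel, hlink, hπtors, hπker,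
    hπgal, hπhecke⟩ := hTP N p hT hHGC hES hTFL
  obtain ⟨L, hLfg, hL⟩ := hKL
  -- the `p`-adic cyclotomic character
  have hmaxZ : IsLocalRing.maximalIdeal ℤ_[p] = Ideal.span {(p : ℤ_[p])} :=
    PadicInt.maximalIdeal_eq_span_p
  have hpZ : (p : ℤ_[p]) ∈ IsLocalRing.maximalIdeal ℤ_[p] := by
    rw [hmaxZ]
    exact Ideal.mem_span_singleton_self _
  obtain ⟨d, hdcont, hdin, hdfrob, -⟩ := Fermat.Agent.S30.cycCharAdic p hp ℤ_[p] hpZ
  -- `p` is not a unit of `T`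
  have hpT : (p : T) ∈ IsLocalRing.maximalIdeal T := by
    have h1 : (p : T) = algebraMap 𝒪 T (p : 𝒪) := (map_natCast (algebraMap 𝒪 T) p).symm
    rw [h1, IsLocalRing.mem_maximalIdeal, mem_nonunits_iff]
    intro hu
    exact (IsLocalRing.mem_maximalIdeal _).mp hp𝒪 (isUnit_of_map_unit (algebraMap 𝒪 T) _ hu)
  -- primes outside `S` do not divide `N * p`
  have hNp : ∀ ℓ : ℕ, ℓ.Prime → ℓ ∉ S → ¬ ℓ ∣ N * p := by
    intro ℓ hℓ hℓS hdvd
    rcases (Nat.Prime.dvd_mul hℓ).mp hdvd with h | h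
    · exact hℓS (hS ℓ hℓ h)
    · exact hℓS (((Nat.prime_dvd_prime_iff_eq hℓ hp).mp h) ▸ hpS)
  have hne : ∀ ℓ : ℕ, ℓ.Prime → ℓ ∉ S → ℓ ≠ p := fun ℓ _ hℓS h => hℓS (h ▸ hpS)
  have hnN : ∀ ℓ : ℕ, ℓ.Prime → ℓ ∉ S → ¬ ℓ ∣ N := fun ℓ hℓ hℓS h => hℓS (hS ℓ hℓ h)
  -- the key divisibility
  obtain ⟨c, e', he', hkey⟩ := TI_key hp hpS hS L hLfg hL
  have hu : IsUnit ((e' : ℕ) : T) := TI_isUnit_natCast hp hpT he'
  -- the approximation step
  have happrox : ∀ (g : GQ) (n : ℕ), ∃ Q ∈ MvPolynomial.supported ℤ (TI_Sc S),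
      TI_Small (IsLocalRing.maximalIdeal ℤ_[p] ^ n)
        (ρ g + ((d g : ℤ_[p]ˣ) : ℤ_[p]) • ρ g⁻¹ - Θ Q) ∧
      LinearMap.trace T H.ρ.V (H.ρ.ρ g) - H.π (TI_evS N S Q) ∈
        IsLocalRing.maximalIdeal T ^ n := by
    intro g n
    obtain ⟨L₁, hL₁, h₁⟩ := hcont n
    obtain ⟨L₂, hL₂, h₂⟩ := hdcont n
    obtain ⟨L₃, hL₃, h₃⟩ := H.ρ.isAdicContinuous n
    have hfd12 : FiniteDimensional ℚ ↥(L₁ ⊔ L₂) := IntermediateField.finiteDimensional_sup L₁ L₂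
    have hfd : FiniteDimensional ℚ ↥(L₁ ⊔ L₂ ⊔ L₃) :=
      IntermediateField.finiteDimensional_sup (L₁ ⊔ L₂) L₃
    obtain ⟨ℓ, hℓ, hℓS, A', hA', f, hf, k, hk⟩ := hCheb (L₁ ⊔ L₂ ⊔ L₃) hfd g S
    -- `σ = (f ^ k)⁻¹ * g` fixes the compositum
    have hσ : ∀ x ∈ L₁ ⊔ L₂ ⊔ L₃, ((f ^ k)⁻¹ * g) x = x := fun x hx => by
      rw [AlgEquiv.mul_apply, hk x hx]
      exact (f ^ k).symm_apply_apply x
    have hσi : ∀ x ∈ L₁ ⊔ L₂ ⊔ L₃, ((f ^ k)⁻¹ * g)⁻¹ x = x := fun x hx => by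
      have h := hσ x hx
      have h2 : ((f ^ k)⁻¹ * g)⁻¹ (((f ^ k)⁻¹ * g) x) = x :=
        ((f ^ k)⁻¹ * g).symm_apply_apply x
      rw [h] at h2
      exact h2
    have hg : g = f ^ k * ((f ^ k)⁻¹ * g) := by rw [mul_inv_cancel_left]
    have hle₁ : L₁ ≤ L₁ ⊔ L₂ ⊔ L₃ := le_sup_left.trans le_sup_left
    have hle₂ : L₂ ≤ L₁ ⊔ L₂ ⊔ L₃ := le_sup_right.trans le_sup_left
    have hle₃ : L₃ ≤ L₁ ⊔ L₂ ⊔ L₃ := le_sup_right
    have hs₁ : TI_Small (IsLocalRing.maximalIdeal ℤ_[p] ^ n) (ρ ((f ^ k)⁻¹ * g) - 1) :=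
      fun v => by
        rw [LinearMap.sub_apply, Module.End.one_apply]
        exact h₁ _ (fun x hx => hσ x (hle₁ hx)) v
    have hs₁' : TI_Small (IsLocalRing.maximalIdeal ℤ_[p] ^ n) (ρ ((f ^ k)⁻¹ * g)⁻¹ - 1) :=
      fun v => by
        rw [LinearMap.sub_apply, Module.End.one_apply]
        exact h₁ _ (fun x hx => hσi x (hle₁ hx)) v
    have hs₂ := h₂ ((f ^ k)⁻¹ * g) fun x hx => hσ x (hle₂ hx)
    have hs₃ : TI_Small (IsLocalRing.maximalIdeal T ^ n) (H.ρ.ρ ((f ^ k)⁻¹ * g) - 1) :=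
      fun v => by
        rw [LinearMap.sub_apply, Module.End.one_apply]
        exact h₃ _ (fun x hx => hσ x (hle₃ hx)) v
    have hℓN : ¬ ℓ ∣ N := hnN ℓ hℓ hℓS
    have hℓS' : ℓ ∉ (↑S : Set ℕ) := fun h => hℓS (Finset.mem_coe.mp h)
    refine ⟨acTrace (MvPolynomial.X (⟨ℓ, hℓ⟩ : Nat.Primes)) (MvPolynomial.C ((ℓ : ℕ) : ℤ)) k,
      ?_, ?_, ?_⟩
    · refine TI_acTrace_mem _ ?_ (Subalgebra.algebraMap_mem _ _) k
      exact MvPolynomial.X_mem_supported.mpr hℓS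
    · have hrel := hESrel ℓ hℓ (hNp ℓ hℓ hℓS) A' hA' f hf
      have hdf := hdfrob ℓ hℓ (hne ℓ hℓ hℓS) A' hA' f hf
      have h := TI_approx_M (IsLocalRing.maximalIdeal ℤ_[p] ^ n) ρ d Θ (⟨ℓ, hℓ⟩ : Nat.Primes) f
        ((f ^ k)⁻¹ * g) k (hcomm _ f) hrel hdf hs₁ hs₁' hs₂
      rw [← hg] at h
      exact h
    · have hcp := H.charpoly_frob ℓ hℓ hℓN hℓS' A' hA' f hf
      have h := TI_approx_T H.ρ.finrank_eq (IsLocalRing.maximalIdeal T ^ n) H.ρ.ρ f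
        ((f ^ k)⁻¹ * g) k _ _ hcp hs₃
      rw [← hg] at h
      have e1 : H.π (TI_evS N S
          (acTrace (MvPolynomial.X (⟨ℓ, hℓ⟩ : Nat.Primes)) (MvPolynomial.C ((ℓ : ℕ) : ℤ)) k)) =
          acTrace (H.π (CuspForm.heckeAlgebra.T hℓ hℓN hℓS')) ((ℓ : T)) k := by
        have h1 := TI_map_acTrace (H.π.comp (TI_evS N S : MvPolynomial Nat.Primes ℤ →+*
          CuspForm.heckeAlgebra N 2 (↑S : Set ℕ)))
          (MvPolynomial.X (⟨ℓ, hℓ⟩ : Nat.Primes)) (MvPolynomial.C ((ℓ : ℕ) : ℤ)) k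
        have h2 : (H.π.comp (TI_evS N S : MvPolynomial Nat.Primes ℤ →+*
            CuspForm.heckeAlgebra N 2 (↑S : Set ℕ))) (MvPolynomial.X (⟨ℓ, hℓ⟩ : Nat.Primes)) =
            H.π (CuspForm.heckeAlgebra.T hℓ hℓN hℓS') := by
          rw [RingHom.comp_apply]
          congr 1
          exact TI_evS_X N S ⟨ℓ, hℓ⟩ hℓN hℓS'
        have h3 : (H.π.comp (TI_evS N S : MvPolynomial Nat.Primes ℤ →+*
            CuspForm.heckeAlgebra N 2 (↑S : Set ℕ))) (MvPolynomial.C ((ℓ : ℕ) : ℤ)) =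
            (ℓ : T) := by
          rw [MvPolynomial.C_eq_coe_nat, map_natCast]
        rw [h2, h3] at h1
        exact h1
      rw [e1]
      exact h
  -- the monodromy relation on the Tate module
  have hquad : ρ σ₀ * ρ σ₀ + 1 = 2 • ρ σ₀ := by
    refine LinearMap.ext fun t => ?_
    have hu0 : ρ σ₀ (ρ σ₀ t) + t - 2 • ρ σ₀ t = 0 := by
      refine TT2_eq_zero_of_forall_dvd (p := p) _ fun k => ?_
      refine hπker k _ ?_
      rw [map_sub, map_add, map_nsmul, hπgal, hπgal]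
      rw [hMono q hq hqp hqN hq2 A hA σ₀ hσ₀ k (π k t) (hπtors k t), sub_self]
    rw [LinearMap.add_apply, Module.End.mul_apply, Module.End.one_apply, LinearMap.smul_apply]
    exact sub_eq_zero.mp hu0
  have hdσ : d σ₀ = 1 := hdin q hq hqp A hA σ₀ hσ₀
  have hinv : ρ σ₀⁻¹ * ρ σ₀ = 1 := by rw [← map_mul, inv_mul_cancel, map_one]
  have hs : ρ σ₀ + ((d σ₀ : ℤ_[p]ˣ) : ℤ_[p]) • ρ σ₀⁻¹ =
      ρ 1 + ((d 1 : ℤ_[p]ˣ) : ℤ_[p]) • ρ (1 : GQ)⁻¹ := by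
    rw [hdσ, inv_one, map_one, map_one, Units.val_one, one_smul, one_smul,
      TT2_add_inv_eq_two hquad hinv, two_smul]
  -- the difference of the traces lies in every power of the maximal ideal
  have hmem : ∀ j : ℕ, LinearMap.trace T H.ρ.V (H.ρ.ρ σ₀) -
      LinearMap.trace T H.ρ.V (H.ρ.ρ 1) ∈ IsLocalRing.maximalIdeal T ^ j := by
    intro j
    obtain ⟨Q₁, hQ₁, hM₁, hT₁⟩ := happrox σ₀ (j + c)
    obtain ⟨Q₂, hQ₂, hM₂, hT₂⟩ := happrox 1 (j + c)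
    have hQ : Q₁ - Q₂ ∈ MvPolynomial.supported ℤ (TI_Sc S) := Subalgebra.sub_mem _ hQ₁ hQ₂
    have hsmall : TI_Small (IsLocalRing.maximalIdeal ℤ_[p] ^ (j + c)) (Θ (Q₁ - Q₂)) := by
      have e : Θ (Q₁ - Q₂) = (ρ 1 + ((d 1 : ℤ_[p]ˣ) : ℤ_[p]) • ρ (1 : GQ)⁻¹ - Θ Q₂) -
          (ρ σ₀ + ((d σ₀ : ℤ_[p]ˣ) : ℤ_[p]) • ρ σ₀⁻¹ - Θ Q₁) := by
        rw [hs, map_sub]
        abel
      rw [e]
      exact hM₂.sub hM₁
    have hdiv : ∀ v : M, ∃ w : M, Θ (Q₁ - Q₂) v = ((p : ℤ_[p]) ^ (j + c)) • w := by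
      intro v
      have h := hsmall v
      rw [hmaxZ, Ideal.span_singleton_pow] at h
      exact (TI_mem_span_smul_iff _ _).mp h
    obtain ⟨z, hz⟩ := hkey (j + c) (Nat.le_add_left c j) (Q₁ - Q₂) hQ (hlink (Q₁ - Q₂) (j + c) hdiv)
    rw [Nat.add_sub_cancel] at hz
    have hπ : ((e' : ℕ) : T) * H.π (TI_evS N S (Q₁ - Q₂)) = (p : T) ^ j * H.π z := by
      have := congrArg H.π hz
      rw [map_nsmul, map_nsmul, nsmul_eq_mul, nsmul_eq_mul] at this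
      push_cast at this
      exact this
    have hπmem : H.π (TI_evS N S (Q₁ - Q₂)) ∈ IsLocalRing.maximalIdeal T ^ j := by
      obtain ⟨u, hu'⟩ := hu
      have e : H.π (TI_evS N S (Q₁ - Q₂)) = (p : T) ^ j * (↑u⁻¹ * H.π z) := by
        rw [← mul_assoc, mul_comm ((p : T) ^ j), mul_assoc, ← hπ, ← hu', ← mul_assoc,
          Units.inv_mul, one_mul]
      rw [e]
      exact Ideal.mul_mem_right _ _ (Ideal.pow_mem_pow hpT j)
    have hle : IsLocalRing.maximalIdeal T ^ (j + c) ≤ IsLocalRing.maximalIdeal T ^ j :=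
      Ideal.pow_le_pow_right (Nat.le_add_right j c)
    have e : LinearMap.trace T H.ρ.V (H.ρ.ρ σ₀) - LinearMap.trace T H.ρ.V (H.ρ.ρ 1) =
        (LinearMap.trace T H.ρ.V (H.ρ.ρ σ₀) - H.π (TI_evS N S Q₁))
          - (LinearMap.trace T H.ρ.V (H.ρ.ρ 1) - H.π (TI_evS N S Q₂))
          + H.π (TI_evS N S (Q₁ - Q₂)) := by
      rw [map_sub, map_sub]
      ring
    rw [e]
    exact Ideal.add_mem _ (Ideal.sub_mem _ (hle hT₁) (hle hT₂)) hπmem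
  have hbot : (⨅ i : ℕ, IsLocalRing.maximalIdeal T ^ i) = ⊥ :=
    Ideal.iInf_pow_eq_bot_of_isLocalRing _ (IsLocalRing.maximalIdeal.isMaximal T).ne_top
  have h0 : LinearMap.trace T H.ρ.V (H.ρ.ρ σ₀) - LinearMap.trace T H.ρ.V (H.ρ.ρ 1) ∈
      (⨅ i : ℕ, IsLocalRing.maximalIdeal T ^ i) := by
    rw [Ideal.mem_iInf]
    exact hmem
  rw [hbot, Ideal.mem_bot] at h0
  rw [sub_eq_zero.mp h0, map_one, LinearMap.trace_one, H.ρ.finrank_eq]
  norm_num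

end Fermat.Agent.S34
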