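import Fermat.Agent.S34.Assembly
import Fermat.Agent.S34.TatePackageFull
import Fermat.Agent.S34.TraceTwo
import Fermat.Agent.S34.DetInertia
import Fermat.Agent.S30.GlueGood

/-!
# W3-LGC, S34: the statement from the gate at good levels and the monodromy input

All algebra is landed (T1 `tatePackageFull`, T2 `traceTwo_of`, T3 `detInertia`); the open
inputs are `S37.GateGood` (P-RED) and `InertiaUnipotentTorsion` (IN-MONO, W3-LGC).

Author: helper30.
-/

set_option autoImplicit false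

namespace Fermat.Agent.S34

/-- T2, unconditionally. -/
theorem traceTwo (N p : ℕ) [NeZero N] : TraceTwoStatement N p :=
  traceTwo_of Fermat.Agent.S30.tate (fun N p _ _ => tatePackageFull N p) N p

/-- S34 from the gate at good levels and the monodromy input. -/
theorem s34_of_mono (hG : Fermat.Agent.S37.GateGood)
    (hMono : ∀ (N p : ℕ) [NeZero N], p.Prime → InertiaUnipotentTorsion N p)
    {𝒪 : Type} [CommRing 𝒪] [IsDomain 𝒪] [IsDiscreteValuationRing 𝒪]
    [IsAdicComplete (IsLocalRing.maximalIdeal 𝒪) 𝒪]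
    {p : ℕ} (hp : p.Prime) (hp𝒪 : (p : 𝒪) ∈ IsLocalRing.maximalIdeal 𝒪)
    {N : ℕ} [NeZero N] {S : Finset ℕ} (hpS : p ∈ S) (hNS : ∀ q : ℕ, q.Prime → q ∣ N → q ∈ S)
    {θ : CuspForm.heckeAlgebra N 2 (↑S : Set ℕ) →+* IsLocalRing.ResidueField 𝒪}
    {T : Type} [CommRing T] [IsLocalRing T] [IsNoetherianRing T]
    [IsAdicComplete (IsLocalRing.maximalIdeal T) T] [Algebra 𝒪 T] [IsLocalHom (algebraMap 𝒪 T)]
    [Module.Finite 𝒪 T] [Module.Free 𝒪 T]
    (H : CuspForm.HeckeGaloisRepDatum N (↑S : Set ℕ) 𝒪 θ T)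
    (q : ℕ) (hq : q.Prime) (hqp : q ≠ p) (hqN : q ∣ N) (hq2 : ¬ q ^ 2 ∣ N) :
    H.ρ.IsUnipotentOnInertiaAt q :=
  s34_of (Fermat.Agent.S30.geometricInputsFull_of_gateGood hG) hMono
    (fun N p _ => traceTwo N p) detInertia hp hp𝒪 hpS hNS H q hq hqp hqN hq2

end Fermat.Agent.S34
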