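import Fermat.Agent.S31.Skeleton
import Fermat.Prelude.Def_GaloisRep_LocalConditions

/-!
# W3-LGC, S34 (unipotent inertia at `q ∥ N`, `q ≠ p`): interface skeleton of the algebraic half

Architect of this half: helper30.  Every declaration is a frozen interface `Prop`; nothing is
assumed.

`IsUnipotentOnInertiaAt` asks for `charpoly (ρ σ) = (X - 1) ^ 2`, i.e. `tr ρ(σ) = 2` and
`det ρ(σ) = 1`, for `σ` in an inertia group at `q`.

* `InertiaUnipotentTorsion N p` (**IN-MONO**, the geometric input, W3-LGC): inertia at `q ∥ N`,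
  `q ≠ p`, satisfies `(σ - 1) ^ 2 = 0` on the `p`-power torsion of `J₀(N)` (Grothendieck's
  monodromy theorem for the semistable reduction of `J₀(N)` at `q`).
* `TatePackageFullStatement N p`: the Tate package of S31 together with the projections
  `π k : M → J₀(N)[p ^ k]`, so that relations on torsion points transfer to the Tate module.
* `TraceTwoStatement N p`: `tr ρ(σ) = 2` for the representation of a Hecke–Galois datum
  (the trace is `λ (σ + d(σ) σ⁻¹)` with `σ + σ⁻¹ = 2` on the Tate module).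
* `DetInertiaStatement`: `det ρ(σ) = 1` for `σ` in an inertia group at `q ≠ p` (the determinant
  is the cyclotomic character, by Chebotarev and continuity).
-/

set_option autoImplicit false

namespace Fermat.Agent.S34

open Fermat.Agent.S29 (GQ WeakChebotarev HeckeGaloisCommute EichlerShimuraTorsion
  TorsionFiniteLevel)
open Fermat.Agent.S30 (TateStatement)
open Fermat.Agent.S31 (HeckeKeyLattice)

/-- **IN-MONO (geometric input).**  For a prime `q ≠ p` which exactly divides `N`, every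
element `σ` of an inertia group at `q` satisfies `(σ - 1) ^ 2 = 0` on the `p`-power torsion
of `J₀(N)`. -/
def InertiaUnipotentTorsion (N p : ℕ) [NeZero N] : Prop :=
  ∀ q : ℕ, q.Prime → q ≠ p → q ∣ N → ¬ q ^ 2 ∣ N →
    ∀ A : ValuationSubring (AlgebraicClosure ℚ), A.LiesOverPrime q →
      ∀ σ ∈ A.inertiaSubgroupIn ℚ, ∀ (k : ℕ) (x : ModularCurve.JZero N), p ^ k • x = 0 →
        σ • σ • x + x = 2 • σ • x

/-- **T1 (TatePackageFull).**  The Tate package `Fermat.Agent.S31.TatePackageStatement`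
together with the projections `π k` to the torsion points: `π k` has values in `J₀(N)[p ^ k]`,
kernel `p ^ k M`, and is equivariant for Galois and for the Hecke operators. -/
def TatePackageFullStatement (N p : ℕ) [NeZero N] [Fact p.Prime] : Prop :=
  TateStatement → HeckeGaloisCommute N → EichlerShimuraTorsion N p →
    (∀ k : ℕ, TorsionFiniteLevel N (p ^ k)) →
    ∃ (M : Type) (_ : AddCommGroup M) (_ : Module ℤ_[p] M) (_ : Module.Free ℤ_[p] M)
      (_ : Module.Finite ℤ_[p] M) (ρ : GQ →* Module.End ℤ_[p] M)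
      (Θ : MvPolynomial Nat.Primes ℤ →+* Module.End ℤ_[p] M)
      (π : ℕ → M →+ ModularCurve.JZero N),
      (∀ (P : MvPolynomial Nat.Primes ℤ) (g : GQ), Commute (Θ P) (ρ g)) ∧
      GaloisActionIsAdicContinuous ℤ_[p] ρ ∧
      (∀ q : ℕ, q.Prime → ¬ q ∣ N * p →
        ∀ A : ValuationSubring (AlgebraicClosure ℚ), A.LiesOverPrime q →
          ∀ σ ∈ A.inertiaSubgroupIn ℚ, ρ σ = 1) ∧
      (∀ (ℓ : ℕ) (hℓ : ℓ.Prime), ¬ ℓ ∣ N * p →
        ∀ A : ValuationSubring (AlgebraicClosure ℚ), A.LiesOverPrime ℓ →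
          ∀ σ : GQ, A.IsFrobeniusAt σ ℓ →
            ρ σ * ρ σ - Θ (MvPolynomial.X ⟨ℓ, hℓ⟩) * ρ σ
              + (ℓ : ℤ_[p]) • (1 : Module.End ℤ_[p] M) = 0) ∧
      (∀ (P : MvPolynomial Nat.Primes ℤ) (k : ℕ),
        (∀ v : M, ∃ w : M, Θ P v = ((p : ℤ_[p]) ^ k) • w) →
        ∃ m : ℕ, letI := ModularCurve.heckeModuleBar N
          ∀ x : ModularCurve.JZero N, p ^ (k + m) • x = 0 →
            (MvPolynomial.C ((p : ℤ) ^ m) * P) • x = 0) ∧
      (∀ (k : ℕ) (t : M), p ^ k • π k t = 0) ∧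
      (∀ (k : ℕ) (t : M), π k t = 0 → ∃ s : M, t = ((p : ℤ_[p]) ^ k) • s) ∧
      (∀ (g : GQ) (k : ℕ) (t : M), π k (ρ g t) = g • π k t) ∧
      (letI := ModularCurve.heckeModuleBar N
        ∀ (P : MvPolynomial Nat.Primes ℤ) (k : ℕ) (t : M), π k (Θ P t) = P • π k t)

/-- **T2 (TraceTwo).** -/
def TraceTwoStatement (N p : ℕ) [NeZero N] : Prop :=
  p.Prime → WeakChebotarev → HeckeGaloisCommute N → EichlerShimuraTorsion N p →
    (∀ k : ℕ, TorsionFiniteLevel N (p ^ k)) → HeckeKeyLattice N →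
    InertiaUnipotentTorsion N p →
    ∀ (S : Finset ℕ), p ∈ S → (∀ q : ℕ, q.Prime → q ∣ N → q ∈ S) →
    ∀ (𝒪 : Type) [CommRing 𝒪] [IsDomain 𝒪] [IsDiscreteValuationRing 𝒪]
      [IsAdicComplete (IsLocalRing.maximalIdeal 𝒪) 𝒪],
      (p : 𝒪) ∈ IsLocalRing.maximalIdeal 𝒪 →
    ∀ (θ : CuspForm.heckeAlgebra N 2 (↑S : Set ℕ) →+* IsLocalRing.ResidueField 𝒪)
      (T : Type) [CommRing T] [IsLocalRing T] [IsNoetherianRing T]
      [IsAdicComplete (IsLocalRing.maximalIdeal T) T] [Algebra 𝒪 T]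
      [IsLocalHom (algebraMap 𝒪 T)] [Module.Finite 𝒪 T] [Module.Free 𝒪 T]
      (H : CuspForm.HeckeGaloisRepDatum N (↑S : Set ℕ) 𝒪 θ T),
      ∀ q : ℕ, q.Prime → q ≠ p → q ∣ N → ¬ q ^ 2 ∣ N →
        ∀ A : ValuationSubring (AlgebraicClosure ℚ), A.LiesOverPrime q →
          ∀ σ ∈ A.inertiaSubgroupIn ℚ, LinearMap.trace T H.ρ.V (H.ρ.ρ σ) = 2

/-- **T3 (DetInertia).** -/
def DetInertiaStatement : Prop :=
  WeakChebotarev →
  ∀ (p : ℕ), p.Prime → ∀ (N : ℕ) [NeZero N] (S : Finset ℕ), p ∈ S →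
    ∀ (𝒪 : Type) [CommRing 𝒪] [IsDomain 𝒪] [IsDiscreteValuationRing 𝒪]
      [IsAdicComplete (IsLocalRing.maximalIdeal 𝒪) 𝒪],
      (p : 𝒪) ∈ IsLocalRing.maximalIdeal 𝒪 →
    ∀ (θ : CuspForm.heckeAlgebra N 2 (↑S : Set ℕ) →+* IsLocalRing.ResidueField 𝒪)
      (T : Type) [CommRing T] [IsLocalRing T] [IsNoetherianRing T]
      [IsAdicComplete (IsLocalRing.maximalIdeal T) T] [Algebra 𝒪 T]
      [IsLocalHom (algebraMap 𝒪 T)] [Module.Finite 𝒪 T] [Module.Free 𝒪 T]
      (H : CuspForm.HeckeGaloisRepDatum N (↑S : Set ℕ) 𝒪 θ T),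
      ∀ q : ℕ, q.Prime → q ≠ p →
        ∀ A : ValuationSubring (AlgebraicClosure ℚ), A.LiesOverPrime q →
          ∀ σ ∈ A.inertiaSubgroupIn ℚ, LinearMap.det (H.ρ.ρ σ) = 1

end Fermat.Agent.S34
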