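import Fermat.Agent.S34.Skeleton
import Fermat.Agent.S30.Assembly

/-!
# W3-LGC, S34: conditional assembly

`s34_of` : S34 from the geometric inputs of P-GALREP, the monodromy input `IN-MONO`, and the two
algebraic modules T2 (`TraceTwoStatement`) and T3 (`DetInertiaStatement`).

Author: helper30.
-/

set_option autoImplicit false

open Polynomial

namespace Fermat.Agent.S34

open Fermat.Agent.S30 (GeometricInputsFull)

/-- The characteristic polynomial of an endomorphism of a free module of rank two. -/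
theorem charpoly_of_finrank_two {T : Type*} [CommRing T] [Nontrivial T] {V : Type*}
    [AddCommGroup V] [Module T V] [Module.Free T V] [Module.Finite T V]
    (hV : Module.finrank T V = 2) (f : Module.End T V) :
    LinearMap.charpoly f = X ^ 2 - C (LinearMap.trace T V f) * X + C (LinearMap.det f) := by
  classical
  let B := Module.Free.chooseBasis T V
  have hcard : Fintype.card (Module.Free.ChooseBasisIndex T V) = 2 := by
    rw [← Module.finrank_eq_card_chooseBasisIndex, hV]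
  let e : Module.Free.ChooseBasisIndex T V ≃ Fin 2 := Fintype.equivFinOfCardEq hcard
  let B' : Module.Basis (Fin 2) T V := B.reindex e
  rw [← LinearMap.charpoly_toMatrix f B', Matrix.charpoly_fin_two,
    LinearMap.trace_eq_matrix_trace T B' f, ← LinearMap.det_toMatrix B' f]

/-- S34 from the geometric inputs, IN-MONO, T2 and T3. -/
theorem s34_of (h : GeometricInputsFull)
    (hMono : ∀ (N p : ℕ) [NeZero N], p.Prime → InertiaUnipotentTorsion N p)
    (hT2 : ∀ (N p : ℕ) [NeZero N], TraceTwoStatement N p)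
    (hT3 : DetInertiaStatement)
    {𝒪 : Type} [CommRing 𝒪] [IsDomain 𝒪] [IsDiscreteValuationRing 𝒪]
    [IsAdicComplete (IsLocalRing.maximalIdeal 𝒪) 𝒪]
    {p : ℕ} (hp : p.Prime) (hp𝒪 : (p : 𝒪) ∈ IsLocalRing.maximalIdeal 𝒪)
    {N : ℕ} [NeZero N] {S : Finset ℕ} (hpS : p ∈ S) (hNS : ∀ q : ℕ, q.Prime → q ∣ N → q ∈ S)
    {θ : CuspForm.heckeAlgebra N 2 (↑S : Set ℕ) →+* IsLocalRing.ResidueField 𝒪}
    {T : Type} [CommRing T] [IsLocalRing T] [IsNoetherianRing T]
    [IsAdicComplete (IsLocalRing.maximalIdeal T) T] [Algebra 𝒪 T] [IsLocalHom (algebraMap 𝒪 T)]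
    [Module.Finite 𝒪 T] [Module.Free 𝒪 T]
    (H : CuspForm.HeckeGaloisRepDatum N (↑S : Set ℕ) 𝒪 θ T)
    (q : ℕ) (hq : q.Prime) (hqp : q ≠ p) (hqN : q ∣ N) (hq2 : ¬ q ^ 2 ∣ N) :
    H.ρ.IsUnipotentOnInertiaAt q := by
  intro A hA σ hσ
  have htr : LinearMap.trace T H.ρ.V (H.ρ.ρ σ) = 2 :=
    hT2 N p hp Fermat.Agent.Cheb.weakChebotarev (h.1 N) (h.2.1 N p hp)
      (fun k => h.2.2.1 N (p ^ k) (pow_pos hp.pos k)) (h.2.2.2 N) (hMono N p hp) S hpS hNS 𝒪 hp𝒪
      θ T H q hq hqp hqN hq2 A hA σ hσ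
  have hdet : LinearMap.det (H.ρ.ρ σ) = 1 :=
    hT3 Fermat.Agent.Cheb.weakChebotarev p hp N S hpS 𝒪 hp𝒪 θ T H q hq hqp A hA σ hσ
  rw [charpoly_of_finrank_two H.ρ.finrank_eq, htr, hdet]
  simp only [map_one, map_ofNat]
  ring

end Fermat.Agent.S34
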